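import Fermat.Agent.Lib.Cheb.H163.LogBd

/-!
# CHEB Tier 2, piece ABS (helper163): the abstract Dirichlet lemma

`abstractDirichlet` is `AbstractDirichletStatement` of helper221's CYC interface
(`Fermat/Agent/Lib/Cheb/H221/CycSpec.lean`), handed in unfolded.
-/

set_option autoImplicit false
set_option linter.unusedSectionVars false
set_option linter.unusedVariables false

namespace Fermat.Agent.Lib.Cheb.H163

open Filter Topology

noncomputable section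

open Classical in
/-- The sum of a character over a subgroup on which it is nontrivial vanishes. -/
theorem sum_subgroup_eq_zero {m : ℕ} [NeZero m] (A : Subgroup (ZMod m)ˣ)
    (χ : DirichletCharacter ℂ m) (h : ∃ u ∈ A, χ ((u : (ZMod m)ˣ) : ZMod m) ≠ 1) :
    ∑ u ∈ Finset.univ.filter (fun u : (ZMod m)ˣ => u ∈ A), χ ((u : (ZMod m)ˣ) : ZMod m) = 0 := by
  obtain ⟨u₀, hu₀, hne⟩ := h
  have key : χ ((u₀ : (ZMod m)ˣ) : ZMod m) *
      ∑ u ∈ Finset.univ.filter (fun u : (ZMod m)ˣ => u ∈ A), χ ((u : (ZMod m)ˣ) : ZMod m) =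
      ∑ u ∈ Finset.univ.filter (fun u : (ZMod m)ˣ => u ∈ A), χ ((u : (ZMod m)ˣ) : ZMod m) := by
    rw [Finset.mul_sum]
    refine Finset.sum_equiv (Equiv.mulLeft u₀) ?_ ?_
    · intro u
      simp only [Finset.mem_filter, Finset.mem_univ, true_and, Equiv.coe_mulLeft]
      exact ⟨fun hu => A.mul_mem hu₀ hu, fun hu => (A.mul_mem_cancel_left hu₀).mp hu⟩
    · intro u _
      simp only [Equiv.coe_mulLeft, Units.val_mul, map_mul]
  have h2 : (χ ((u₀ : (ZMod m)ˣ) : ZMod m) - 1) *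
      ∑ u ∈ Finset.univ.filter (fun u : (ZMod m)ˣ => u ∈ A), χ ((u : (ZMod m)ˣ) : ZMod m) = 0 := by
    rw [sub_mul, key, one_mul, sub_self]
  rcases mul_eq_zero.mp h2 with h3 | h3
  · exact absurd (sub_eq_zero.mp h3) hne
  · exact h3

open Classical in
/-- The number of elements of `A`, as a filter cardinality. -/
theorem card_filter_mem_eq {m : ℕ} [NeZero m] (A : Subgroup (ZMod m)ˣ) :
    (Finset.univ.filter (fun u : (ZMod m)ˣ => u ∈ A)).card = Nat.card A := by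
  rw [Nat.card_eq_fintype_card, Fintype.card_subtype]

/-- The number of characters trivial on `A`, times `|A|`, is `φ(m)`. -/
theorem card_trivOn_mul_card {m : ℕ} [NeZero m] (A : Subgroup (ZMod m)ˣ)
    [DecidablePred (fun χ : DirichletCharacter ℂ m =>
        ∀ u ∈ A, χ ((u : (ZMod m)ˣ) : ZMod m) = 1)] :
    ((Finset.univ.filter (fun χ : DirichletCharacter ℂ m =>
        ∀ u ∈ A, χ ((u : (ZMod m)ˣ) : ZMod m) = 1)).card : ℂ) * (Nat.card A : ℂ) =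
      (m.totient : ℂ) := by
  classical
  have h1 : ∑ χ : DirichletCharacter ℂ m,
      ∑ u ∈ Finset.univ.filter (fun u : (ZMod m)ˣ => u ∈ A), χ ((u : (ZMod m)ˣ) : ZMod m) =
      (m.totient : ℂ) := by
    rw [Finset.sum_comm]
    simp only [DirichletCharacter.sum_characters_eq ℂ]
    rw [Finset.sum_eq_single_of_mem (1 : (ZMod m)ˣ)
      (by simp only [Finset.mem_filter, Finset.mem_univ, true_and]; exact A.one_mem)]
    · simp
    · intro u _ hu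
      rw [if_neg]
      intro h
      exact hu (Units.ext (by simpa using h))
  rw [← h1, ← Finset.sum_filter_add_sum_filter_not Finset.univ
    (fun χ : DirichletCharacter ℂ m => ∀ u ∈ A, χ ((u : (ZMod m)ˣ) : ZMod m) = 1)]
  have hX : ∀ χ ∈ Finset.univ.filter (fun χ : DirichletCharacter ℂ m =>
      ∀ u ∈ A, χ ((u : (ZMod m)ˣ) : ZMod m) = 1),
      ∑ u ∈ Finset.univ.filter (fun u : (ZMod m)ˣ => u ∈ A), χ ((u : (ZMod m)ˣ) : ZMod m) =
        (Nat.card A : ℂ) := by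
    intro χ hχ
    rw [Finset.mem_filter] at hχ
    rw [Finset.sum_congr rfl (fun u hu => hχ.2 u (Finset.mem_filter.mp hu).2)]
    simp [card_filter_mem_eq]
  have hR : ∀ χ ∈ Finset.univ.filter (fun χ : DirichletCharacter ℂ m =>
      ¬ ∀ u ∈ A, χ ((u : (ZMod m)ˣ) : ZMod m) = 1),
      ∑ u ∈ Finset.univ.filter (fun u : (ZMod m)ˣ => u ∈ A), χ ((u : (ZMod m)ˣ) : ZMod m) =
        0 := by
    intro χ hχ
    rw [Finset.mem_filter] at hχ
    apply sum_subgroup_eq_zero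
    have := hχ.2
    push Not at this
    exact this
  rw [Finset.sum_congr rfl hX, Finset.sum_congr rfl hR]
  simp


/-- The primes belonging to a finite set of natural numbers. -/
def primesIn (B : Finset ℕ) : Finset Nat.Primes :=
  B.preimage (fun p : Nat.Primes => (p : ℕ)) Nat.Primes.coe_nat_injective.injOn

theorem mem_primesIn {B : Finset ℕ} {p : Nat.Primes} : p ∈ primesIn B ↔ (p : ℕ) ∈ B :=
  Finset.mem_preimage

section main

variable {m : ℕ} [NeZero m] (c : Nat.Primes → ℝ)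

/-- The weight `c p * p ^ (-s)`. -/
def wt (s : ℝ) (p : Nat.Primes) : ℝ := c p * ((p : ℕ) : ℝ) ^ (-s)

theorem rpow_neg_le_one {s : ℝ} (hs : 0 ≤ s) (p : Nat.Primes) : ((p : ℕ) : ℝ) ^ (-s) ≤ 1 :=
  Real.rpow_le_one_of_one_le_of_nonpos (by exact_mod_cast p.2.one_lt.le) (by linarith)

theorem wt_nonneg (hc : ∀ p, 0 ≤ c p) (s : ℝ) (p : Nat.Primes) : 0 ≤ wt c s p :=
  mul_nonneg (hc p) (Real.rpow_nonneg (Nat.cast_nonneg _) _)

theorem wt_le (hc : ∀ p, 0 ≤ c p) {s : ℝ} (hs : 0 ≤ s) (p : Nat.Primes) : wt c s p ≤ c p := by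
  have := mul_le_mul_of_nonneg_left (rpow_neg_le_one hs p) (hc p)
  simpa [wt] using this

/-- The twisted sum `T_χ(s) = ∑_p χ(p) c(p) p^(-s)`. -/
def Tsum (χ : DirichletCharacter ℂ m) (s : ℝ) : ℂ :=
  ∑' p : Nat.Primes, χ ((p : ℕ) : ZMod m) * ((wt c s p : ℝ) : ℂ)

/-- The full sum `D(s) = ∑_p c(p) p^(-s)`. -/
def Dsum (s : ℝ) : ℝ := ∑' p : Nat.Primes, wt c s p

/-- The sum over the class `a`. -/
def Dcl (a : ZMod m) (s : ℝ) : ℝ :=
  ∑' p : Nat.Primes, if ((p : ℕ) : ZMod m) = a then wt c s p else 0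

theorem summable_twisted (hc : ∀ p, 0 ≤ c p) {s : ℝ} (hsum : Summable (wt c s))
    (χ : DirichletCharacter ℂ m) :
    Summable (fun p : Nat.Primes => χ ((p : ℕ) : ZMod m) * ((wt c s p : ℝ) : ℂ)) := by
  refine Summable.of_norm_bounded hsum (fun p => ?_)
  rw [norm_mul, Complex.norm_real, Real.norm_of_nonneg (wt_nonneg c hc s p)]
  exact mul_le_of_le_one_left (wt_nonneg c hc s p) (DirichletCharacter.norm_le_one χ _)

/-- Orthogonality of characters, summed against the weights. -/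
theorem orth (hc : ∀ p, 0 ≤ c p) {s : ℝ} (hsum : Summable (wt c s)) (u : (ZMod m)ˣ) :
    (m.totient : ℂ) * ((Dcl c ((u : (ZMod m)ˣ) : ZMod m) s : ℝ) : ℂ) =
      ∑ χ : DirichletCharacter ℂ m,
        χ (((u⁻¹ : (ZMod m)ˣ) : (ZMod m)ˣ) : ZMod m) * Tsum c χ s := by
  have hsumχ := summable_twisted (m := m) c hc hsum
  simp only [Tsum]
  simp_rw [← tsum_mul_left]
  rw [← Summable.tsum_finsetSum (fun χ _ => (hsumχ χ).mul_left _)]
  rw [Dcl, Complex.ofReal_tsum, ← tsum_mul_left]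
  refine tsum_congr fun p => ?_
  have key := DirichletCharacter.sum_char_inv_mul_char_eq ℂ (a := ((u : (ZMod m)ˣ) : ZMod m))
    u.isUnit ((p : ℕ) : ZMod m)
  rw [ZMod.inv_coe_unit] at key
  simp_rw [← mul_assoc, ← Finset.sum_mul, key]
  by_cases h : ((p : ℕ) : ZMod m) = ((u : (ZMod m)ˣ) : ZMod m)
  · rw [if_pos h, if_pos h.symm]
  · rw [if_neg h, if_neg (fun h' => h h'.symm)]
    simp

/-- For a character trivial on `A`, the twisted sum is the full sum up to a bounded error. -/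
theorem norm_Tsum_sub_le (hc : ∀ p, 0 ≤ c p) {s : ℝ} (hs : 0 ≤ s) (hsum : Summable (wt c s))
    (A : Subgroup (ZMod m)ˣ) (B : Finset ℕ)
    (hB : ∀ p : Nat.Primes, (p : ℕ) ∉ B → c p ≠ 0 →
      ∃ u ∈ A, ((u : (ZMod m)ˣ) : ZMod m) = ((p : ℕ) : ZMod m))
    (χ : DirichletCharacter ℂ m) (hχ : ∀ u ∈ A, χ ((u : (ZMod m)ˣ) : ZMod m) = 1) :
    ‖Tsum c χ s - ((Dsum c s : ℝ) : ℂ)‖ ≤
      2 * ∑ p ∈ primesIn B, c p := by
  have hsumχ := summable_twisted c hc hsum χ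
  have hsumC : Summable (fun p : Nat.Primes => ((wt c s p : ℝ) : ℂ)) :=
    Complex.summable_ofReal.mpr hsum
  have h1 : Tsum c χ s - ((Dsum c s : ℝ) : ℂ) =
      ∑' p : Nat.Primes, (χ ((p : ℕ) : ZMod m) - 1) * ((wt c s p : ℝ) : ℂ) := by
    rw [Tsum, Dsum, Complex.ofReal_tsum, ← hsumχ.tsum_sub hsumC]
    exact tsum_congr fun p => by ring
  have h2 : ∀ p ∉ primesIn B,
      (χ ((p : ℕ) : ZMod m) - 1) * ((wt c s p : ℝ) : ℂ) = 0 := by
    intro p hp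
    rw [mem_primesIn] at hp
    by_cases hcp : c p = 0
    · simp [wt, hcp]
    · obtain ⟨u, hu, hup⟩ := hB p hp hcp
      rw [← hup, hχ u hu, sub_self, zero_mul]
  rw [h1, tsum_eq_sum h2, Finset.mul_sum]
  refine (norm_sum_le _ _).trans (Finset.sum_le_sum fun p _ => ?_)
  rw [norm_mul, Complex.norm_real, Real.norm_of_nonneg (wt_nonneg c hc s p)]
  have hn : ‖χ ((p : ℕ) : ZMod m) - 1‖ ≤ 2 := by
    calc ‖χ ((p : ℕ) : ZMod m) - 1‖ ≤ ‖χ ((p : ℕ) : ZMod m)‖ + ‖(1 : ℂ)‖ := norm_sub_le _ _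
      _ ≤ 1 + 1 := by
          gcongr
          · exact DirichletCharacter.norm_le_one χ _
          · simp
      _ = 2 := by norm_num
  exact mul_le_mul hn (wt_le c hc hs p) (wt_nonneg c hc s p) (by norm_num)

/-- If the class of `a` contains no prime with `c p ≠ 0` outside `S`, then `D_a` is bounded. -/
theorem Dcl_le (hc : ∀ p, 0 ≤ c p) {s : ℝ} (hs : 0 ≤ s) (a : ZMod m) (S : Finset ℕ)
    (hcon : ∀ p : Nat.Primes, (p : ℕ) ∉ S → ((p : ℕ) : ZMod m) = a → c p = 0) :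
    Dcl c a s ≤ ∑ p ∈ primesIn S, c p := by
  have h2 : ∀ p ∉ primesIn S,
      (if ((p : ℕ) : ZMod m) = a then wt c s p else 0) = 0 := by
    intro p hp
    rw [mem_primesIn] at hp
    by_cases h : ((p : ℕ) : ZMod m) = a
    · rw [if_pos h]
      simp [wt, hcon p hp h]
    · rw [if_neg h]
  rw [Dcl, tsum_eq_sum h2]
  refine Finset.sum_le_sum fun p _ => ?_
  by_cases h : ((p : ℕ) : ZMod m) = a
  · rw [if_pos h]
    exact wt_le c hc hs p
  · rw [if_neg h]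
    exact hc p

end main


/-- **(ABS)** the abstract Dirichlet lemma: `AbstractDirichletStatement` of the CYC interface. -/
theorem abstractDirichlet :
    ∀ (m : ℕ) [NeZero m] (c : Nat.Primes → ℝ), (∀ p, 0 ≤ c p) →
    (∀ s : ℝ, 1 < s → s ≤ 2 → Summable (fun p : Nat.Primes => c p * (p : ℝ) ^ (-s))) →
    ∀ A : Subgroup (ZMod m)ˣ,
    (∃ B : Finset ℕ, ∀ p : Nat.Primes, (p : ℕ) ∉ B → c p ≠ 0 →
      ∃ u ∈ A, ((u : (ZMod m)ˣ) : ZMod m) = ((p : ℕ) : ZMod m)) →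
    (∃ C : ℝ, ∀ s : ℝ, 1 < s → s ≤ 2 →
      |(∑' p : Nat.Primes, c p * (p : ℝ) ^ (-s)) - Real.log (1 / (s - 1))| ≤ C) →
    (∃ C : ℝ, ∀ s : ℝ, 1 < s → s ≤ 2 →
      (Nat.card A : ℝ)⁻¹ * Real.log (1 / (s - 1)) - C ≤
        ∑' p : Nat.Primes, if ((p : ℕ) : ZMod m) = 1 then c p * (p : ℝ) ^ (-s) else 0) →
    (∀ χ : DirichletCharacter ℂ m, (∃ u ∈ A, χ ((u : (ZMod m)ˣ) : ZMod m) ≠ 1) →
      ∃ (Λ : ℝ → ℂ) (ℓ : ℂ) (C : ℝ), ContinuousOn Λ (Set.Ioi 1) ∧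
        Tendsto (fun s => Complex.exp (Λ s)) (𝓝[>] 1) (𝓝 ℓ) ∧
        ∀ s : ℝ, 1 < s → s ≤ 2 →
          ‖Λ s - ∑' p : Nat.Primes, χ ((p : ℕ) : ZMod m) * ((c p * (p : ℝ) ^ (-s) : ℝ) : ℂ)‖ ≤ C) →
    ∀ a ∈ A, ∀ S : Finset ℕ, ∃ p : Nat.Primes, (p : ℕ) ∉ S ∧
      ((p : ℕ) : ZMod m) = ((a : (ZMod m)ˣ) : ZMod m) ∧ c p ≠ 0 := by
  intro m _ c hc hsum A ⟨B, hB⟩ ⟨Ctot, hTot⟩ ⟨Cone, hOne⟩ hLim a ha S
  classical
  by_contra hcon
  push Not at hcon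
  have hsumw : ∀ s : ℝ, 1 < s → s ≤ 2 → Summable (wt c s) := hsum
  -- data for all characters
  have hLim' : ∀ χ : DirichletCharacter ℂ m, ∃ (Λ : ℝ → ℂ) (ℓ : ℂ) (C : ℝ),
      (¬ ∀ u ∈ A, χ ((u : (ZMod m)ˣ) : ZMod m) = 1) →
      (ContinuousOn Λ (Set.Ioi 1) ∧ Tendsto (fun s => Complex.exp (Λ s)) (𝓝[>] 1) (𝓝 ℓ) ∧
        ∀ s : ℝ, 1 < s → s ≤ 2 → ‖Λ s - Tsum c χ s‖ ≤ C) := by
    intro χ
    by_cases h : ∀ u ∈ A, χ ((u : (ZMod m)ˣ) : ZMod m) = 1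
    · exact ⟨0, 0, 0, fun h' => absurd h h'⟩
    · obtain ⟨Λ, ℓ, C, h1, h2, h3⟩ := hLim χ (by push Not at h; exact h)
      exact ⟨Λ, ℓ, C, fun _ => ⟨h1, h2, h3⟩⟩
  choose Λ ℓ Cχ hΛ using hLim'
  set X : Finset (DirichletCharacter ℂ m) :=
    Finset.univ.filter (fun χ => ∀ u ∈ A, χ ((u : (ZMod m)ˣ) : ZMod m) = 1) with hX
  set R : Finset (DirichletCharacter ℂ m) :=
    Finset.univ.filter (fun χ => ¬ ∀ u ∈ A, χ ((u : (ZMod m)ˣ) : ZMod m) = 1) with hR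
  have hsplit : ∀ f : DirichletCharacter ℂ m → ℝ,
      ∑ χ, f χ = ∑ χ ∈ X, f χ + ∑ χ ∈ R, f χ := fun f =>
    (Finset.sum_filter_add_sum_filter_not Finset.univ
      (fun χ : DirichletCharacter ℂ m => ∀ u ∈ A, χ ((u : (ZMod m)ˣ) : ZMod m) = 1) f).symm
  have hmemX : ∀ χ ∈ X, ∀ u ∈ A, χ ((u : (ZMod m)ˣ) : ZMod m) = 1 := fun χ hχ =>
    (Finset.mem_filter.mp hχ).2
  have hmemR : ∀ χ ∈ R, ¬ ∀ u ∈ A, χ ((u : (ZMod m)ˣ) : ZMod m) = 1 := fun χ hχ =>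
    (Finset.mem_filter.mp hχ).2
  set KB : ℝ := ∑ p ∈ primesIn B, c p with hKB
  set KS : ℝ := ∑ p ∈ primesIn S, c p with hKS
  set NX : ℝ := (X.card : ℝ) with hNX
  set φ : ℝ := (m.totient : ℝ) with hφ
  have hφ0 : 0 ≤ φ := Nat.cast_nonneg _
  have hcard : NX * (Nat.card A : ℝ) = φ := by
    have := card_trivOn_mul_card A
    rw [hNX, hφ, hX]
    exact_mod_cast this
  have hApos : (0 : ℝ) < Nat.card A := by exact_mod_cast Nat.card_pos
  have hNX1 : 1 ≤ NX := by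
    have h1 : (1 : DirichletCharacter ℂ m) ∈ X := by
      rw [hX, Finset.mem_filter]
      exact ⟨Finset.mem_univ _, fun u _ => MulChar.one_apply_coe u⟩
    have := Finset.card_pos.mpr ⟨1, h1⟩
    rw [hNX]
    exact_mod_cast this
  -- the real-part identity
  have hre : ∀ s : ℝ, 1 < s → s ≤ 2 → ∀ u ∈ A,
      φ * Dcl c ((u : (ZMod m)ˣ) : ZMod m) s = ∑ χ ∈ X, (Tsum c χ s).re +
        ∑ χ ∈ R, (χ (((u⁻¹ : (ZMod m)ˣ) : (ZMod m)ˣ) : ZMod m) * Tsum c χ s).re := by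
    intro s hs1 hs2 u hu
    have h := congrArg Complex.re (orth c hc (hsumw s hs1 hs2) u)
    rw [Complex.re_sum, hsplit] at h
    have hl : ((m.totient : ℂ) * ((Dcl c ((u : (ZMod m)ˣ) : ZMod m) s : ℝ) : ℂ)).re =
        φ * Dcl c ((u : (ZMod m)ˣ) : ZMod m) s := by
      rw [← Complex.ofReal_natCast, ← Complex.ofReal_mul, Complex.ofReal_re]
    rw [hl] at h
    rw [h]
    congr 1
    refine Finset.sum_congr rfl fun χ hχ => ?_
    rw [hmemX χ hχ u⁻¹ (A.inv_mem hu), one_mul]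
  -- characters trivial on `A`
  have hXb : ∀ s : ℝ, 1 < s → s ≤ 2 → ∀ χ ∈ X, |(Tsum c χ s).re - Dsum c s| ≤ 2 * KB := by
    intro s hs1 hs2 χ hχ
    have h1 := norm_Tsum_sub_le c hc (by linarith) (hsumw s hs1 hs2) A B hB χ (hmemX χ hχ)
    have h2 := Complex.abs_re_le_norm (Tsum c χ s - ((Dsum c s : ℝ) : ℂ))
    rw [Complex.sub_re, Complex.ofReal_re] at h2
    exact h2.trans h1
  have hD : ∀ s : ℝ, 1 < s → s ≤ 2 → |Dsum c s - Real.log (1 / (s - 1))| ≤ Ctot := hTot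
  have hD1 : ∀ s : ℝ, 1 < s → s ≤ 2 →
      (Nat.card A : ℝ)⁻¹ * Real.log (1 / (s - 1)) - Cone ≤ Dcl c 1 s := hOne
  have hΛT : ∀ s : ℝ, 1 < s → s ≤ 2 → ∀ χ ∈ R, ‖Λ χ s - Tsum c χ s‖ ≤ Cχ χ :=
    fun s hs1 hs2 χ hχ => (hΛ χ (hmemR χ hχ)).2.2 s hs1 hs2
  -- Step A: a lower bound for `∑_R Re Λ_χ`
  set C4 : ℝ := φ * Cone + NX * Ctot + NX * (2 * KB) + ∑ χ ∈ R, Cχ χ with hC4
  have hA : ∀ s : ℝ, 1 < s → s ≤ 2 → -C4 ≤ ∑ χ ∈ R, (Λ χ s).re := by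
    intro s hs1 hs2
    have h1 := hre s hs1 hs2 1 A.one_mem
    simp only [inv_one, Units.val_one, map_one, one_mul] at h1
    have h2 : ∑ χ ∈ X, (Tsum c χ s).re ≤
        NX * Real.log (1 / (s - 1)) + NX * Ctot + NX * (2 * KB) := by
      calc ∑ χ ∈ X, (Tsum c χ s).re
          ≤ ∑ χ ∈ X, (Real.log (1 / (s - 1)) + Ctot + 2 * KB) := by
            refine Finset.sum_le_sum fun χ hχ => ?_
            have h3 := abs_le.mp (hXb s hs1 hs2 χ hχ)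
            have h4 := abs_le.mp (hD s hs1 hs2)
            linarith [h3.2, h4.2]
        _ = NX * Real.log (1 / (s - 1)) + NX * Ctot + NX * (2 * KB) := by
            rw [Finset.sum_const, nsmul_eq_mul, hNX]
            ring
    have h3 := hD1 s hs1 hs2
    have h4 : ∑ χ ∈ R, ((Tsum c χ s).re - Cχ χ) ≤ ∑ χ ∈ R, (Λ χ s).re := by
      refine Finset.sum_le_sum fun χ hχ => ?_
      have h5 := Complex.abs_re_le_norm (Λ χ s - Tsum c χ s)
      rw [Complex.sub_re] at h5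
      have h6 := abs_le.mp (h5.trans (hΛT s hs1 hs2 χ hχ))
      linarith [h6.1]
    rw [Finset.sum_sub_distrib] at h4
    have h7 : φ * ((Nat.card A : ℝ)⁻¹ * Real.log (1 / (s - 1)) - Cone) ≤ φ * Dcl c 1 s :=
      mul_le_mul_of_nonneg_left h3 hφ0
    have h8 : φ * (Nat.card A : ℝ)⁻¹ = NX := by
      rw [← hcard]
      field_simp
    have h9 : φ * ((Nat.card A : ℝ)⁻¹ * Real.log (1 / (s - 1)) - Cone) =
        NX * Real.log (1 / (s - 1)) - φ * Cone := by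
      rw [mul_sub, ← mul_assoc, h8]
    rw [h9] at h7
    rw [hC4]
    linarith
  -- all limits are nonzero
  have hℓ : ∀ χ ∈ R, ℓ χ ≠ 0 := by
    intro χ₀ hχ₀ h0
    have htend : Tendsto (fun s => ∏ χ ∈ R, Complex.exp (Λ χ s)) (𝓝[>] 1)
        (𝓝 (∏ χ ∈ R, ℓ χ)) :=
      tendsto_finsetProd R (fun χ hχ => (hΛ χ (hmemR χ hχ)).2.1)
    rw [Finset.prod_eq_zero hχ₀ h0] at htend
    have htend' := htend.norm
    rw [norm_zero] at htend'
    have hev : ∀ᶠ s in 𝓝[>] (1 : ℝ), Real.exp (-C4) ≤ ‖∏ χ ∈ R, Complex.exp (Λ χ s)‖ := by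
      filter_upwards [Ioc_mem_nhdsGT (show (1 : ℝ) < 2 by norm_num)] with s hs
      rw [← Complex.exp_sum, Complex.norm_exp, Complex.re_sum]
      exact Real.exp_le_exp.mpr (hA s hs.1 hs.2)
    have := ge_of_tendsto htend' hev
    exact absurd this (not_le.mpr (Real.exp_pos _))
  -- Step B: the logarithms are bounded near `1`
  have hbd' : ∀ χ : DirichletCharacter ℂ m, ∃ M : ℝ,
      χ ∈ R → ∀ᶠ s in 𝓝[>] (1 : ℝ), ‖Λ χ s‖ ≤ M := by
    intro χ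
    by_cases hχ : χ ∈ R
    · have hχ' := hΛ χ (hmemR χ hχ)
      obtain ⟨δ, hδ, M, hM⟩ := exists_bound_of_tendsto_exp hχ'.1 (hℓ χ hχ) hχ'.2.1
      refine ⟨M, fun _ => ?_⟩
      filter_upwards [Ioo_mem_nhdsGT (show (1 : ℝ) < 1 + δ by linarith)] with s hs
      exact hM s hs.1 hs.2
    · exact ⟨0, fun h => absurd h hχ⟩
  choose M hM using hbd'
  have hevM : ∀ᶠ s in 𝓝[>] (1 : ℝ), ∀ χ ∈ R, ‖Λ χ s‖ ≤ M χ :=
    (Filter.eventually_all_finset R).mpr (fun χ hχ => hM χ hχ)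
  -- Step C: the contradiction
  set Q : ℝ := φ * KS + ∑ χ ∈ R, (M χ + Cχ χ) with hQ
  set W : ℝ := Ctot + 2 * KB with hW
  set Y : ℝ := |Q| + |W| with hY
  have hevL : ∀ᶠ s in 𝓝[>] (1 : ℝ), Y < Real.log (1 / (s - 1)) := by
    have hpos : (0 : ℝ) < Real.exp (-Y) := Real.exp_pos _
    filter_upwards [Ioo_mem_nhdsGT (show (1 : ℝ) < 1 + Real.exp (-Y) by linarith)] with s hs
    have h1 : 0 < s - 1 := by linarith [hs.1]
    have h2 : s - 1 < Real.exp (-Y) := by linarith [hs.2]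
    have h3 : Real.log (s - 1) < -Y := (Real.log_lt_iff_lt_exp h1).mpr h2
    rw [one_div, Real.log_inv]
    linarith
  have hev12 : ∀ᶠ s in 𝓝[>] (1 : ℝ), s ∈ Set.Ioc (1 : ℝ) 2 :=
    Ioc_mem_nhdsGT (show (1 : ℝ) < 2 by norm_num)
  obtain ⟨s, hs12, hsM, hsL⟩ := (hev12.and (hevM.and hevL)).exists
  have h1 := hre s hs12.1 hs12.2 a ha
  have h2 := Dcl_le c hc (show (0 : ℝ) ≤ s by linarith [hs12.1]) ((a : (ZMod m)ˣ) : ZMod m) S hcon
  have h3 : NX * (Real.log (1 / (s - 1)) - W) ≤ ∑ χ ∈ X, (Tsum c χ s).re := by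
    calc NX * (Real.log (1 / (s - 1)) - W)
        = ∑ χ ∈ X, (Real.log (1 / (s - 1)) - W) := by
          rw [Finset.sum_const, nsmul_eq_mul, hNX]
      _ ≤ ∑ χ ∈ X, (Tsum c χ s).re := by
          refine Finset.sum_le_sum fun χ hχ => ?_
          have h4 := abs_le.mp (hXb s hs12.1 hs12.2 χ hχ)
          have h5 := abs_le.mp (hD s hs12.1 hs12.2)
          rw [hW]
          linarith [h4.1, h5.1]
  have h4 : -∑ χ ∈ R, (M χ + Cχ χ) ≤
      ∑ χ ∈ R, (χ (((a⁻¹ : (ZMod m)ˣ) : (ZMod m)ˣ) : ZMod m) * Tsum c χ s).re := by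
    rw [← Finset.sum_neg_distrib]
    refine Finset.sum_le_sum fun χ hχ => ?_
    have hT : ‖Tsum c χ s‖ ≤ M χ + Cχ χ := by
      calc ‖Tsum c χ s‖ = ‖Λ χ s - (Λ χ s - Tsum c χ s)‖ := by rw [sub_sub_cancel]
        _ ≤ ‖Λ χ s‖ + ‖Λ χ s - Tsum c χ s‖ := norm_sub_le _ _
        _ ≤ M χ + Cχ χ := add_le_add (hsM χ hχ) (hΛT s hs12.1 hs12.2 χ hχ)
    have h7 : ‖χ (((a⁻¹ : (ZMod m)ˣ) : (ZMod m)ˣ) : ZMod m) * Tsum c χ s‖ ≤ M χ + Cχ χ := by
      rw [norm_mul]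
      calc ‖χ (((a⁻¹ : (ZMod m)ˣ) : (ZMod m)ˣ) : ZMod m)‖ * ‖Tsum c χ s‖
          ≤ 1 * ‖Tsum c χ s‖ :=
            mul_le_mul_of_nonneg_right (DirichletCharacter.norm_le_one χ _) (norm_nonneg _)
        _ ≤ M χ + Cχ χ := by rw [one_mul]; exact hT
    have h8 := Complex.abs_re_le_norm (χ (((a⁻¹ : (ZMod m)ˣ) : (ZMod m)ˣ) : ZMod m) * Tsum c χ s)
    have h9 := abs_le.mp (h8.trans h7)
    linarith [h9.1]
  have h5 : φ * Dcl c ((a : (ZMod m)ˣ) : ZMod m) s ≤ φ * KS :=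
    mul_le_mul_of_nonneg_left h2 hφ0
  have h6 : NX * (Real.log (1 / (s - 1)) - W) ≤ Q := by
    rw [hQ]
    linarith
  have hW1 := le_abs_self W
  have hQ1 := le_abs_self Q
  have hW0 := abs_nonneg W
  have hQ0 := abs_nonneg Q
  have h7 : 0 < Real.log (1 / (s - 1)) - W := by
    rw [hY] at hsL
    linarith
  have h8 : Real.log (1 / (s - 1)) - W ≤ NX * (Real.log (1 / (s - 1)) - W) := by
    nlinarith
  rw [hY] at hsL
  linarith

end

end Fermat.Agent.Lib.Cheb.H163
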