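import Mathlib

/-!
# A bounded continuous logarithm near `1⁺` (helper163)

If `Λ` is continuous on `(1, ∞)` and `exp (Λ s)` tends to a nonzero limit as `s → 1⁺`, then `Λ` is
bounded on some interval `(1, 1 + δ)`.
-/

set_option autoImplicit false

namespace Fermat.Agent.Lib.Cheb.H163

open Filter Topology

/-- A continuous real function on an interval whose values are integers and which vanishes at one
point vanishes identically. -/
theorem eq_zero_of_int_valued_Ioo {a b : ℝ} {r : ℝ → ℝ} (hr : ContinuousOn r (Set.Ioo a b))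
    (hint : ∀ s ∈ Set.Ioo a b, ∃ n : ℤ, r s = n) {s₀ : ℝ} (hs₀ : s₀ ∈ Set.Ioo a b)
    (h0 : r s₀ = 0) : ∀ s ∈ Set.Ioo a b, r s = 0 := by
  intro s hs
  by_contra hne
  obtain ⟨n, hn⟩ := hint s hs
  have hn0 : n ≠ 0 := by
    rintro rfl
    exact hne (by simpa using hn)
  have hpre : IsPreconnected (Set.Ioo a b) := isPreconnected_Ioo
  rcases lt_or_gt_of_ne hn0 with hneg | hpos
  · -- `r s ≤ -1 < -1/2 < 0 = r s₀`
    have hle : (n : ℝ) ≤ -1 := by exact_mod_cast Int.le_sub_one_of_lt hneg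
    have hmem : (-1 / 2 : ℝ) ∈ Set.Icc (r s) (r s₀) := by
      rw [hn, h0]
      constructor <;> linarith
    obtain ⟨t, ht, htv⟩ := hpre.intermediate_value hs hs₀ hr hmem
    obtain ⟨k, hk⟩ := hint t ht
    rw [hk] at htv
    have h2 : (2 * k : ℤ) = -1 := by
      have : (2 : ℝ) * k = -1 := by linarith
      exact_mod_cast this
    omega
  · have hle : (1 : ℝ) ≤ n := by exact_mod_cast Int.add_one_le_of_lt hpos
    have hmem : (1 / 2 : ℝ) ∈ Set.Icc (r s₀) (r s) := by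
      rw [hn, h0]
      constructor <;> linarith
    obtain ⟨t, ht, htv⟩ := hpre.intermediate_value hs₀ hs hr hmem
    obtain ⟨k, hk⟩ := hint t ht
    rw [hk] at htv
    have h2 : (2 * k : ℤ) = 1 := by
      have : (2 : ℝ) * k = 1 := by linarith
      exact_mod_cast this
    omega

/-- **Bounded logarithm.** -/
theorem exists_bound_of_tendsto_exp {Λ : ℝ → ℂ} (hΛ : ContinuousOn Λ (Set.Ioi 1)) {ℓ : ℂ}
    (hℓ : ℓ ≠ 0) (h : Tendsto (fun s => Complex.exp (Λ s)) (𝓝[>] 1) (𝓝 ℓ)) :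
    ∃ δ : ℝ, 0 < δ ∧ ∃ M : ℝ, ∀ s : ℝ, 1 < s → s < 1 + δ → ‖Λ s‖ ≤ M := by
  have hℓpos : 0 < ‖ℓ‖ := norm_pos_iff.mpr hℓ
  obtain ⟨δ, hδ, hclose⟩ := (Metric.tendsto_nhdsWithin_nhds.mp h) (‖ℓ‖ / 2) (by positivity)
  refine ⟨δ, hδ, ?_⟩
  -- the interval
  have hsub : Set.Ioo 1 (1 + δ) ⊆ Set.Ioi (1 : ℝ) := fun s hs => hs.1
  -- `z s = exp (Λ s) / ℓ` is within `1/2` of `1`
  have hz : ∀ s ∈ Set.Ioo 1 (1 + δ), ‖Complex.exp (Λ s) / ℓ - 1‖ ≤ 1 / 2 := by
    intro s hs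
    have hd : dist s 1 < δ := by
      rw [Real.dist_eq, abs_lt]
      constructor <;> linarith [hs.1, hs.2]
    have := hclose hs.1 hd
    rw [dist_eq_norm] at this
    have hrw : Complex.exp (Λ s) / ℓ - 1 = (Complex.exp (Λ s) - ℓ) / ℓ := by
      field_simp
    rw [hrw, norm_div, div_le_iff₀ hℓpos]
    linarith
  have hslit : ∀ s ∈ Set.Ioo 1 (1 + δ), Complex.exp (Λ s) / ℓ ∈ Complex.slitPlane := by
    intro s hs
    have h1 := hz s hs
    have h2 : |(Complex.exp (Λ s) / ℓ - 1).re| ≤ ‖Complex.exp (Λ s) / ℓ - 1‖ :=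
      Complex.abs_re_le_norm _
    have h3 : (Complex.exp (Λ s) / ℓ - 1).re = (Complex.exp (Λ s) / ℓ).re - 1 := by simp
    rw [h3, abs_le] at h2
    left
    linarith [h2.1]
  have hLbound : ∀ s ∈ Set.Ioo 1 (1 + δ), ‖Complex.log (Complex.exp (Λ s) / ℓ)‖ ≤ 3 / 4 := by
    intro s hs
    have h1 := Complex.norm_log_one_add_half_le_self (hz s hs)
    rw [add_sub_cancel] at h1
    linarith [hz s hs]
  have hzne : ∀ s ∈ Set.Ioo 1 (1 + δ), Complex.exp (Λ s) / ℓ ≠ 0 := fun s _ =>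
    div_ne_zero (Complex.exp_ne_zero _) hℓ
  -- the continuous function `H s = Λ s - log (z s)` satisfies `exp (H s) = ℓ`
  set H : ℝ → ℂ := fun s => Λ s - Complex.log (Complex.exp (Λ s) / ℓ) with hH
  have hHcont : ContinuousOn H (Set.Ioo 1 (1 + δ)) := by
    have hΛ' : ContinuousOn Λ (Set.Ioo 1 (1 + δ)) := hΛ.mono hsub
    have hz' : ContinuousOn (fun s => Complex.exp (Λ s) / ℓ) (Set.Ioo 1 (1 + δ)) :=
      (Complex.continuous_exp.comp_continuousOn hΛ').div_const ℓ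
    exact hΛ'.sub (hz'.clog hslit)
  have hHexp : ∀ s ∈ Set.Ioo 1 (1 + δ), Complex.exp (H s) = ℓ := by
    intro s hs
    rw [hH]
    simp only
    rw [Complex.exp_sub, Complex.exp_log (hzne s hs)]
    field_simp
  -- base point
  have hs₀ : (1 + δ / 2) ∈ Set.Ioo 1 (1 + δ) := ⟨by linarith, by linarith⟩
  set s₀ : ℝ := 1 + δ / 2 with hs₀def
  -- integer-valued function
  set r : ℝ → ℝ := fun s => (H s - H s₀).im / (2 * Real.pi) with hr
  have hrcont : ContinuousOn r (Set.Ioo 1 (1 + δ)) := by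
    have h1 : ContinuousOn (fun s => H s - H s₀) (Set.Ioo 1 (1 + δ)) :=
      hHcont.sub continuousOn_const
    exact (Complex.continuous_im.comp_continuousOn h1).div_const _
  have hperiod : ∀ s ∈ Set.Ioo 1 (1 + δ), ∃ n : ℤ, H s - H s₀ = n * (2 * Real.pi * Complex.I) := by
    intro s hs
    apply Complex.exp_eq_one_iff.mp
    rw [Complex.exp_sub, hHexp s hs, hHexp s₀ hs₀, div_self hℓ]
  have hrint : ∀ s ∈ Set.Ioo 1 (1 + δ), ∃ n : ℤ, r s = n := by
    intro s hs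
    obtain ⟨n, hn⟩ := hperiod s hs
    refine ⟨n, ?_⟩
    rw [hr]
    simp only
    rw [hn]
    have : ((n : ℂ) * (2 * Real.pi * Complex.I)).im = n * (2 * Real.pi) := by
      simp
    rw [this]
    field_simp
  have hr0 : r s₀ = 0 := by
    rw [hr]
    simp
  have hrzero := eq_zero_of_int_valued_Ioo hrcont hrint hs₀ hr0
  have hHconst : ∀ s ∈ Set.Ioo 1 (1 + δ), H s = H s₀ := by
    intro s hs
    obtain ⟨n, hn⟩ := hperiod s hs
    have h1 := hrzero s hs
    rw [hr] at h1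
    simp only at h1
    rw [hn] at h1
    have h2 : ((n : ℂ) * (2 * Real.pi * Complex.I)).im = n * (2 * Real.pi) := by
      simp
    rw [h2] at h1
    have hpi : (2 * Real.pi) ≠ 0 := by positivity
    have h3 : (n : ℝ) = 0 := by
      field_simp at h1
      simpa using h1
    have h4 : n = 0 := by exact_mod_cast h3
    rw [h4] at hn
    simpa [sub_eq_zero] using hn
  refine ⟨‖H s₀‖ + 3 / 4, fun s hs1 hs2 => ?_⟩
  have hs : s ∈ Set.Ioo 1 (1 + δ) := ⟨hs1, hs2⟩
  have hdecomp : Λ s = H s₀ + Complex.log (Complex.exp (Λ s) / ℓ) := by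
    rw [← hHconst s hs, hH]
    ring
  rw [hdecomp]
  exact (norm_add_le _ _).trans (by linarith [hLbound s hs])

end Fermat.Agent.Lib.Cheb.H163
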