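import Fermat.Agent.Lib.Cheb.SpecQ2
import Fermat.Agent.Lib.Cheb.H163.AbsDir

/-!
# CHEB Tier 3, piece Q-ABS (helper163): the quantitative abstract Dirichlet lemma

`abstractDirichletQ : SpecQ.AbstractDirichletQStatement`: under the hypotheses of the abstract
Dirichlet lemma, `∑_{p ≡ a} c(p) p^(-s) ≥ |A|⁻¹ log (1/(s-1)) - C` on `(1, 2]` for every `a ∈ A`.
-/

set_option autoImplicit false
set_option linter.unusedSectionVars false
set_option linter.unusedVariables false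

namespace Fermat.Agent.Lib.Cheb.H163

open Filter Topology

theorem Dcl_nonneg {m : ℕ} [NeZero m] (c : Nat.Primes → ℝ) (hc : ∀ p, 0 ≤ c p) (a : ZMod m)
    (s : ℝ) : 0 ≤ Dcl c a s := by
  refine tsum_nonneg fun p => ?_
  by_cases h : ((p : ℕ) : ZMod m) = a
  · rw [if_pos h]
    exact wt_nonneg c hc s p
  · rw [if_neg h]

/-- **(Q-ABS)** the quantitative abstract Dirichlet lemma. -/
theorem abstractDirichletQ : SpecQ.AbstractDirichletQStatement := by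
  intro m _ c hc hsum A ⟨B, hB⟩ ⟨Ctot, hTot⟩ ⟨Cone, hOne⟩ hLim a ha
  classical
  have hsumw : ∀ s : ℝ, 1 < s → s ≤ 2 → Summable (wt c s) := hsum
  -- data for all characters
  have hLim' : ∀ χ : DirichletCharacter ℂ m, ∃ (Λ : ℝ → ℂ) (ℓ : ℂ) (C : ℝ),
      (¬ ∀ u ∈ A, χ ((u : (ZMod m)ˣ) : ZMod m) = 1) →
      (ContinuousOn Λ (Set.Ioi 1) ∧ Tendsto (fun s => Complex.exp (Λ s)) (𝓝[>] 1) (𝓝 ℓ) ∧
        ∀ s : ℝ, 1 < s → s ≤ 2 → ‖Λ s - Tsum c χ s‖ ≤ C) := by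
    intro χ
    by_cases h : ∀ u ∈ A, χ ((u : (ZMod m)ˣ) : ZMod m) = 1
    · exact ⟨0, 0, 0, fun h' => absurd h h'⟩
    · obtain ⟨Λ, ℓ, C, h1, h2, h3⟩ := hLim χ (by push Not at h; exact h)
      exact ⟨Λ, ℓ, C, fun _ => ⟨h1, h2, h3⟩⟩
  choose Λ ℓ Cχ hΛ using hLim'
  set X : Finset (DirichletCharacter ℂ m) :=
    Finset.univ.filter (fun χ => ∀ u ∈ A, χ ((u : (ZMod m)ˣ) : ZMod m) = 1) with hX
  set R : Finset (DirichletCharacter ℂ m) :=
    Finset.univ.filter (fun χ => ¬ ∀ u ∈ A, χ ((u : (ZMod m)ˣ) : ZMod m) = 1) with hR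
  have hsplit : ∀ f : DirichletCharacter ℂ m → ℝ,
      ∑ χ, f χ = ∑ χ ∈ X, f χ + ∑ χ ∈ R, f χ := fun f =>
    (Finset.sum_filter_add_sum_filter_not Finset.univ
      (fun χ : DirichletCharacter ℂ m => ∀ u ∈ A, χ ((u : (ZMod m)ˣ) : ZMod m) = 1) f).symm
  have hmemX : ∀ χ ∈ X, ∀ u ∈ A, χ ((u : (ZMod m)ˣ) : ZMod m) = 1 := fun χ hχ =>
    (Finset.mem_filter.mp hχ).2
  have hmemR : ∀ χ ∈ R, ¬ ∀ u ∈ A, χ ((u : (ZMod m)ˣ) : ZMod m) = 1 := fun χ hχ =>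
    (Finset.mem_filter.mp hχ).2
  set KB : ℝ := ∑ p ∈ primesIn B, c p with hKB
  set NX : ℝ := (X.card : ℝ) with hNX
  set φ : ℝ := (m.totient : ℝ) with hφ
  have hφ0 : 0 ≤ φ := Nat.cast_nonneg _
  have hcard : NX * (Nat.card A : ℝ) = φ := by
    have := card_trivOn_mul_card A
    rw [hNX, hφ, hX]
    exact_mod_cast this
  have hApos : (0 : ℝ) < Nat.card A := by exact_mod_cast Nat.card_pos
  have hNX1 : 1 ≤ NX := by
    have h1 : (1 : DirichletCharacter ℂ m) ∈ X := by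
      rw [hX, Finset.mem_filter]
      exact ⟨Finset.mem_univ _, fun u _ => MulChar.one_apply_coe u⟩
    have := Finset.card_pos.mpr ⟨1, h1⟩
    rw [hNX]
    exact_mod_cast this
  -- the real-part identity
  have hre : ∀ s : ℝ, 1 < s → s ≤ 2 → ∀ u ∈ A,
      φ * Dcl c ((u : (ZMod m)ˣ) : ZMod m) s = ∑ χ ∈ X, (Tsum c χ s).re +
        ∑ χ ∈ R, (χ (((u⁻¹ : (ZMod m)ˣ) : (ZMod m)ˣ) : ZMod m) * Tsum c χ s).re := by
    intro s hs1 hs2 u hu
    have h := congrArg Complex.re (orth c hc (hsumw s hs1 hs2) u)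
    rw [Complex.re_sum, hsplit] at h
    have hl : ((m.totient : ℂ) * ((Dcl c ((u : (ZMod m)ˣ) : ZMod m) s : ℝ) : ℂ)).re =
        φ * Dcl c ((u : (ZMod m)ˣ) : ZMod m) s := by
      rw [← Complex.ofReal_natCast, ← Complex.ofReal_mul, Complex.ofReal_re]
    rw [hl] at h
    rw [h]
    congr 1
    refine Finset.sum_congr rfl fun χ hχ => ?_
    rw [hmemX χ hχ u⁻¹ (A.inv_mem hu), one_mul]
  -- characters trivial on `A`
  have hXb : ∀ s : ℝ, 1 < s → s ≤ 2 → ∀ χ ∈ X, |(Tsum c χ s).re - Dsum c s| ≤ 2 * KB := by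
    intro s hs1 hs2 χ hχ
    have h1 := norm_Tsum_sub_le c hc (by linarith) (hsumw s hs1 hs2) A B hB χ (hmemX χ hχ)
    have h2 := Complex.abs_re_le_norm (Tsum c χ s - ((Dsum c s : ℝ) : ℂ))
    rw [Complex.sub_re, Complex.ofReal_re] at h2
    exact h2.trans h1
  have hD : ∀ s : ℝ, 1 < s → s ≤ 2 → |Dsum c s - Real.log (1 / (s - 1))| ≤ Ctot := hTot
  have hD1 : ∀ s : ℝ, 1 < s → s ≤ 2 →
      (Nat.card A : ℝ)⁻¹ * Real.log (1 / (s - 1)) - Cone ≤ Dcl c 1 s := hOne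
  have hΛT : ∀ s : ℝ, 1 < s → s ≤ 2 → ∀ χ ∈ R, ‖Λ χ s - Tsum c χ s‖ ≤ Cχ χ :=
    fun s hs1 hs2 χ hχ => (hΛ χ (hmemR χ hχ)).2.2 s hs1 hs2
  -- Step A: a lower bound for `∑_R Re Λ_χ`
  set C4 : ℝ := φ * Cone + NX * Ctot + NX * (2 * KB) + ∑ χ ∈ R, Cχ χ with hC4
  have hA : ∀ s : ℝ, 1 < s → s ≤ 2 → -C4 ≤ ∑ χ ∈ R, (Λ χ s).re := by
    intro s hs1 hs2
    have h1 := hre s hs1 hs2 1 A.one_mem
    simp only [inv_one, Units.val_one, map_one, one_mul] at h1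
    have h2 : ∑ χ ∈ X, (Tsum c χ s).re ≤
        NX * Real.log (1 / (s - 1)) + NX * Ctot + NX * (2 * KB) := by
      calc ∑ χ ∈ X, (Tsum c χ s).re
          ≤ ∑ χ ∈ X, (Real.log (1 / (s - 1)) + Ctot + 2 * KB) := by
            refine Finset.sum_le_sum fun χ hχ => ?_
            have h3 := abs_le.mp (hXb s hs1 hs2 χ hχ)
            have h4 := abs_le.mp (hD s hs1 hs2)
            linarith [h3.2, h4.2]
        _ = NX * Real.log (1 / (s - 1)) + NX * Ctot + NX * (2 * KB) := by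
            rw [Finset.sum_const, nsmul_eq_mul, hNX]
            ring
    have h3 := hD1 s hs1 hs2
    have h4 : ∑ χ ∈ R, ((Tsum c χ s).re - Cχ χ) ≤ ∑ χ ∈ R, (Λ χ s).re := by
      refine Finset.sum_le_sum fun χ hχ => ?_
      have h5 := Complex.abs_re_le_norm (Λ χ s - Tsum c χ s)
      rw [Complex.sub_re] at h5
      have h6 := abs_le.mp (h5.trans (hΛT s hs1 hs2 χ hχ))
      linarith [h6.1]
    rw [Finset.sum_sub_distrib] at h4
    have h7 : φ * ((Nat.card A : ℝ)⁻¹ * Real.log (1 / (s - 1)) - Cone) ≤ φ * Dcl c 1 s :=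
      mul_le_mul_of_nonneg_left h3 hφ0
    have h8 : φ * (Nat.card A : ℝ)⁻¹ = NX := by
      rw [← hcard]
      field_simp
    have h9 : φ * ((Nat.card A : ℝ)⁻¹ * Real.log (1 / (s - 1)) - Cone) =
        NX * Real.log (1 / (s - 1)) - φ * Cone := by
      rw [mul_sub, ← mul_assoc, h8]
    rw [h9] at h7
    rw [hC4]
    linarith
  -- all limits are nonzero
  have hℓ : ∀ χ ∈ R, ℓ χ ≠ 0 := by
    intro χ₀ hχ₀ h0
    have htend : Tendsto (fun s => ∏ χ ∈ R, Complex.exp (Λ χ s)) (𝓝[>] 1)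
        (𝓝 (∏ χ ∈ R, ℓ χ)) :=
      tendsto_finsetProd R (fun χ hχ => (hΛ χ (hmemR χ hχ)).2.1)
    rw [Finset.prod_eq_zero hχ₀ h0] at htend
    have htend' := htend.norm
    rw [norm_zero] at htend'
    have hev : ∀ᶠ s in 𝓝[>] (1 : ℝ), Real.exp (-C4) ≤ ‖∏ χ ∈ R, Complex.exp (Λ χ s)‖ := by
      filter_upwards [Ioc_mem_nhdsGT (show (1 : ℝ) < 2 by norm_num)] with s hs
      rw [← Complex.exp_sum, Complex.norm_exp, Complex.re_sum]
      exact Real.exp_le_exp.mpr (hA s hs.1 hs.2)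
    have := ge_of_tendsto htend' hev
    exact absurd this (not_le.mpr (Real.exp_pos _))
  -- Step B: the logarithms are bounded near `1`
  have hbd' : ∀ χ : DirichletCharacter ℂ m, ∃ M : ℝ,
      χ ∈ R → ∀ᶠ s in 𝓝[>] (1 : ℝ), ‖Λ χ s‖ ≤ M := by
    intro χ
    by_cases hχ : χ ∈ R
    · have hχ' := hΛ χ (hmemR χ hχ)
      obtain ⟨δ, hδ, M, hM⟩ := exists_bound_of_tendsto_exp hχ'.1 (hℓ χ hχ) hχ'.2.1
      refine ⟨M, fun _ => ?_⟩
      filter_upwards [Ioo_mem_nhdsGT (show (1 : ℝ) < 1 + δ by linarith)] with s hs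
      exact hM s hs.1 hs.2
    · exact ⟨0, fun h => absurd h hχ⟩
  choose M hM using hbd'
  have hevM : ∀ᶠ s in 𝓝[>] (1 : ℝ), ∀ χ ∈ R, ‖Λ χ s‖ ≤ M χ :=
    (Filter.eventually_all_finset R).mpr (fun χ hχ => hM χ hχ)
  -- an explicit interval on which all logarithms are bounded
  obtain ⟨u, hu1, hu⟩ := mem_nhdsGT_iff_exists_Ioo_subset.mp hevM
  rw [Set.mem_Ioi] at hu1
  have hφpos : 0 < φ := by
    have h1 : 0 < NX * (Nat.card A : ℝ) := mul_pos (by linarith) hApos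
    rwa [hcard] at h1
  set Q : ℝ := ∑ χ ∈ R, (M χ + Cχ χ) with hQ
  set W : ℝ := Ctot + 2 * KB with hW
  set cA : ℝ := (Nat.card A : ℝ)⁻¹ with hcA
  have hcA0 : 0 < cA := inv_pos.mpr hApos
  have hNXφ : NX = φ * cA := by
    rw [hcA, ← hcard]
    field_simp
  set C1 : ℝ := cA * W + Q / φ with hC1
  set L0 : ℝ := Real.log (1 / (u - 1)) with hL0
  refine ⟨|C1| + cA * |L0|, fun s hs1 hs2 => ?_⟩
  have hgoal : Dcl c ((a : (ZMod m)ˣ) : ZMod m) s =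
      ∑' p : Nat.Primes, if ((p : ℕ) : ZMod m) = ((a : (ZMod m)ˣ) : ZMod m)
        then c p * (p : ℝ) ^ (-s) else 0 := rfl
  rw [← hgoal]
  have hC1le := le_abs_self C1
  have hL0le := le_abs_self L0
  have hC1nn := abs_nonneg C1
  have hL0nn := abs_nonneg L0
  rcases lt_or_ge s u with hsu | hsu
  · -- near `1`
    have hsM := hu (show s ∈ Set.Ioo 1 u from ⟨hs1, hsu⟩)
    simp only [Set.mem_ofPred_eq] at hsM
    have h1 := hre s hs1 hs2 a ha
    have h3 : NX * (Real.log (1 / (s - 1)) - W) ≤ ∑ χ ∈ X, (Tsum c χ s).re := by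
      calc NX * (Real.log (1 / (s - 1)) - W)
          = ∑ χ ∈ X, (Real.log (1 / (s - 1)) - W) := by
            rw [Finset.sum_const, nsmul_eq_mul, hNX]
        _ ≤ ∑ χ ∈ X, (Tsum c χ s).re := by
            refine Finset.sum_le_sum fun χ hχ => ?_
            have h4 := abs_le.mp (hXb s hs1 hs2 χ hχ)
            have h5 := abs_le.mp (hD s hs1 hs2)
            rw [hW]
            linarith [h4.1, h5.1]
    have h4 : -Q ≤
        ∑ χ ∈ R, (χ (((a⁻¹ : (ZMod m)ˣ) : (ZMod m)ˣ) : ZMod m) * Tsum c χ s).re := by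
      rw [hQ, ← Finset.sum_neg_distrib]
      refine Finset.sum_le_sum fun χ hχ => ?_
      have hT : ‖Tsum c χ s‖ ≤ M χ + Cχ χ := by
        calc ‖Tsum c χ s‖ = ‖Λ χ s - (Λ χ s - Tsum c χ s)‖ := by rw [sub_sub_cancel]
          _ ≤ ‖Λ χ s‖ + ‖Λ χ s - Tsum c χ s‖ := norm_sub_le _ _
          _ ≤ M χ + Cχ χ := add_le_add (hsM χ hχ) (hΛT s hs1 hs2 χ hχ)
      have h7 : ‖χ (((a⁻¹ : (ZMod m)ˣ) : (ZMod m)ˣ) : ZMod m) * Tsum c χ s‖ ≤ M χ + Cχ χ := by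
        rw [norm_mul]
        calc ‖χ (((a⁻¹ : (ZMod m)ˣ) : (ZMod m)ˣ) : ZMod m)‖ * ‖Tsum c χ s‖
            ≤ 1 * ‖Tsum c χ s‖ :=
              mul_le_mul_of_nonneg_right (DirichletCharacter.norm_le_one χ _) (norm_nonneg _)
          _ ≤ M χ + Cχ χ := by rw [one_mul]; exact hT
      have h8 :=
        Complex.abs_re_le_norm (χ (((a⁻¹ : (ZMod m)ˣ) : (ZMod m)ˣ) : ZMod m) * Tsum c χ s)
      have h9 := abs_le.mp (h8.trans h7)
      linarith [h9.1]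
    have h5 : φ * (cA * Real.log (1 / (s - 1)) - C1) ≤
        φ * Dcl c ((a : (ZMod m)ˣ) : ZMod m) s := by
      have h6 : φ * (cA * Real.log (1 / (s - 1)) - C1) =
          NX * (Real.log (1 / (s - 1)) - W) - Q := by
        rw [hC1, hNXφ]
        field_simp
        ring
      rw [h6, h1]
      linarith
    have h6 := le_of_mul_le_mul_left h5 hφpos
    have : 0 ≤ cA * |L0| := mul_nonneg hcA0.le hL0nn
    linarith
  · -- away from `1`
    have hu0 : 0 < u - 1 := by linarith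
    have hs0 : 0 < s - 1 := by linarith
    have hlog : Real.log (1 / (s - 1)) ≤ L0 := by
      rw [hL0]
      apply Real.log_le_log (by positivity)
      exact one_div_le_one_div_of_le hu0 (by linarith)
    have h1 : cA * Real.log (1 / (s - 1)) ≤ cA * |L0| :=
      mul_le_mul_of_nonneg_left (hlog.trans hL0le) hcA0.le
    have h2 := Dcl_nonneg c hc ((a : (ZMod m)ˣ) : ZMod m) s
    linarith

end Fermat.Agent.Lib.Cheb.H163
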