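import Fermat.Agent.Lib.Cheb.H163.TwistEuler
import Fermat.Agent.Lib.Cheb.H761.PrimeSum

/-!
# CHEB Tier 2, piece DEG (helper163): twisted prime-ideal sums versus sums over rational primes

`∑_𝔭 χ(N𝔭) N𝔭^(-s) - ∑_p χ(p) c_F(p) p^(-s)` is bounded (by `H761.highBound F`, for all `s > 1`):
the difference is the sum over the primes of degree `≥ 2`.

This is `TwistedPrimeSumStatement` of helper221's CYC skeleton
(`origin/helper221:Fermat/Agent/Lib/Cheb/H221/CycSkel_wip.lean`), handed in unfolded.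
-/

set_option autoImplicit false
set_option linter.unusedSectionVars false
set_option linter.unusedVariables false

namespace Fermat.Agent.Lib.Cheb.H163

open NumberField IsDedekindDomain Ideal

noncomputable section

variable (F : Type) [Field F] [NumberField F] (m : ℕ) [NeZero m] (χ : DirichletCharacter ℂ m)

/-- The twisted terms are summable over the primes. -/
theorem summable_tw_primes {s : ℝ} (hs : 1 < s) :
    Summable (fun 𝔭 : HeightOneSpectrum (𝓞 F) => tw F m χ s 𝔭.asIdeal) :=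
  Summable.of_norm_bounded (H761.summable_primeSum F hs) (fun 𝔭 => norm_tw_le F m χ s 𝔭.asIdeal)

/-- Summability of `c_F(p) p^(-s)` over the rational primes. -/
theorem summable_primeCount {s : ℝ} (hs : 1 < s) :
    Summable (fun p : Nat.Primes => (Spec.primeCount F p : ℝ) * ((p : ℕ) : ℝ) ^ (-s)) := by
  have hsum : Summable (fun 𝔭 : H761.lowPrimes F => H761.normPow F s 𝔭.1.asIdeal) :=
    (H761.summable_primeSum F hs).subtype _
  have hsum' : Summable (fun y : Σ p : Nat.Primes,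
      {𝔭 : H761.lowPrimes F // H761.lowNorm F 𝔭 = p} => H761.normPow F s y.2.1.1.asIdeal) :=
    ((Equiv.sigmaFiberEquiv (H761.lowNorm F)).summable_iff
      (f := fun 𝔭 : H761.lowPrimes F => H761.normPow F s 𝔭.1.asIdeal)).mpr hsum
  exact hsum'.sigma.congr fun p => H761.tsum_fibre F s p

/-- The twisted sum over the primes of norm `p`. -/
theorem tsum_fibre_tw (s : ℝ) (p : Nat.Primes) :
    ∑' x : {𝔭 : H761.lowPrimes F // H761.lowNorm F 𝔭 = p}, tw F m χ s x.1.1.asIdeal =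
      χ ((p : ℕ) : ZMod m) * (((Spec.primeCount F p : ℝ) * ((p : ℕ) : ℝ) ^ (-s) : ℝ) : ℂ) := by
  have := H761.finite_fibre F p
  have : Fintype {𝔭 : H761.lowPrimes F // H761.lowNorm F 𝔭 = p} := Fintype.ofFinite _
  rw [tsum_fintype]
  have h : ∀ x : {𝔭 : H761.lowPrimes F // H761.lowNorm F 𝔭 = p},
      tw F m χ s x.1.1.asIdeal = χ ((p : ℕ) : ZMod m) * ((((p : ℕ) : ℝ) ^ (-s) : ℝ) : ℂ) := by
    intro x
    have := congrArg Subtype.val x.2
    simp only [H761.lowNorm] at this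
    simp only [tw, this]
  simp only [h, Finset.sum_const, Finset.card_univ, nsmul_eq_mul, ← H761.card_fibre F p,
    Nat.card_eq_fintype_card, Complex.ofReal_mul, Complex.ofReal_natCast]
  ring

/-- The twisted sum over the primes of prime norm, indexed by the rational primes. -/
theorem tsum_lowPrimes_tw {s : ℝ} (hs : 1 < s) :
    ∑' 𝔭 : H761.lowPrimes F, tw F m χ s 𝔭.1.asIdeal =
      ∑' p : Nat.Primes, χ ((p : ℕ) : ZMod m) *
        (((Spec.primeCount F p : ℝ) * ((p : ℕ) : ℝ) ^ (-s) : ℝ) : ℂ) := by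
  have hsum : Summable (fun 𝔭 : H761.lowPrimes F => tw F m χ s 𝔭.1.asIdeal) :=
    (summable_tw_primes F m χ hs).subtype _
  have hsum' : Summable (fun y : Σ p : Nat.Primes,
      {𝔭 : H761.lowPrimes F // H761.lowNorm F 𝔭 = p} => tw F m χ s y.2.1.1.asIdeal) :=
    ((Equiv.sigmaFiberEquiv (H761.lowNorm F)).summable_iff
      (f := fun 𝔭 : H761.lowPrimes F => tw F m χ s 𝔭.1.asIdeal)).mpr hsum
  calc ∑' 𝔭 : H761.lowPrimes F, tw F m χ s 𝔭.1.asIdeal
      = ∑' y : Σ p : Nat.Primes, {𝔭 : H761.lowPrimes F // H761.lowNorm F 𝔭 = p},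
          tw F m χ s y.2.1.1.asIdeal :=
        ((Equiv.sigmaFiberEquiv (H761.lowNorm F)).tsum_eq
          (fun 𝔭 : H761.lowPrimes F => tw F m χ s 𝔭.1.asIdeal)).symm
    _ = ∑' p : Nat.Primes, ∑' x : {𝔭 : H761.lowPrimes F // H761.lowNorm F 𝔭 = p},
          tw F m χ s x.1.1.asIdeal := hsum'.tsum_sigma
    _ = _ := tsum_congr fun p => tsum_fibre_tw F m χ s p

/-- The primes of degree `≥ 2` contribute at most `highBound F` to the twisted sum. -/
theorem norm_tsum_highPrimes_tw_le {s : ℝ} (hs : 1 < s) :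
    ‖∑' 𝔭 : H761.highPrimes F, tw F m χ s 𝔭.1.asIdeal‖ ≤ H761.highBound F := by
  have hsumR : Summable (fun 𝔭 : H761.highPrimes F => H761.normPow F s 𝔭.1.asIdeal) :=
    (H761.summable_primeSum F hs).subtype _
  have hsumN : Summable (fun 𝔭 : H761.highPrimes F => ‖tw F m χ s 𝔭.1.asIdeal‖) :=
    Summable.of_nonneg_of_le (fun _ => norm_nonneg _)
      (fun 𝔭 => norm_tw_le F m χ s 𝔭.1.asIdeal) hsumR
  calc ‖∑' 𝔭 : H761.highPrimes F, tw F m χ s 𝔭.1.asIdeal‖
      ≤ ∑' 𝔭 : H761.highPrimes F, ‖tw F m χ s 𝔭.1.asIdeal‖ := norm_tsum_le_tsum_norm hsumN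
    _ ≤ ∑' 𝔭 : H761.highPrimes F, H761.normPow F s 𝔭.1.asIdeal :=
        hsumN.tsum_le_tsum (fun 𝔭 => norm_tw_le F m χ s 𝔭.1.asIdeal) hsumR
    _ ≤ H761.highBound F := H761.tsum_highPrimes_le F hs

/-- The twisted prime-ideal sum differs from the twisted sum over rational primes by at most
`highBound F`, for every `s > 1`. -/
theorem norm_tsum_tw_sub_le {s : ℝ} (hs : 1 < s) :
    ‖(∑' 𝔭 : HeightOneSpectrum (𝓞 F), tw F m χ s 𝔭.asIdeal) -
        ∑' p : Nat.Primes, χ ((p : ℕ) : ZMod m) *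
          (((Spec.primeCount F p : ℝ) * ((p : ℕ) : ℝ) ^ (-s) : ℝ) : ℂ)‖ ≤ H761.highBound F := by
  have hsum := summable_tw_primes F m χ hs
  have hsplit : (∑' 𝔭 : HeightOneSpectrum (𝓞 F), tw F m χ s 𝔭.asIdeal) =
      (∑' 𝔭 : H761.lowPrimes F, tw F m χ s 𝔭.1.asIdeal) +
        ∑' 𝔭 : H761.highPrimes F, tw F m χ s 𝔭.1.asIdeal := by
    have hc : H761.highPrimes F = (H761.lowPrimes F)ᶜ := rfl
    rw [hc]
    exact ((hsum.subtype _).tsum_add_tsum_compl (hsum.subtype _)).symm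
  rw [hsplit, tsum_lowPrimes_tw F m χ hs, add_sub_cancel_left]
  exact norm_tsum_highPrimes_tw_le F m χ hs

end

/-- **(DEG)** `TwistedPrimeSumStatement` of the CYC skeleton (the hypothesis `PrimeSumStatement`
is not needed). -/
theorem twistedPrimeSum :
    Spec.PrimeSumStatement →
    ∀ (F : Type) [Field F] [NumberField F] (m : ℕ) [NeZero m] (χ : DirichletCharacter ℂ m),
      ∃ C : ℝ, ∀ s : ℝ, 1 < s → s ≤ 2 →
        Summable (fun p : Nat.Primes => (Spec.primeCount F p : ℝ) * (p : ℝ) ^ (-s)) ∧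
        ‖(∑' 𝔭 : HeightOneSpectrum (𝓞 F), χ (Ideal.absNorm 𝔭.asIdeal : ZMod m) *
            (((Ideal.absNorm 𝔭.asIdeal : ℝ) ^ (-s) : ℝ) : ℂ)) -
          ∑' p : Nat.Primes, χ ((p : ℕ) : ZMod m) *
            (((Spec.primeCount F p : ℝ) * (p : ℝ) ^ (-s) : ℝ) : ℂ)‖ ≤ C := by
  intro _ F _ _ m _ χ
  exact ⟨H761.highBound F, fun s hs _ =>
    ⟨summable_primeCount F hs, norm_tsum_tw_sub_le F m χ hs⟩⟩

end Fermat.Agent.Lib.Cheb.H163
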