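import Fermat.Agent.Lib.Cheb.Spec
import Fermat.Agent.Lib.Cheb.H761.ZetaEuler

/-!
# CHEB Tier 2, piece EP (helper163): the twisted Euler product

For a number field `F`, a Dirichlet character `χ` mod `m` and real `s > 1`:
`∏_𝔭 (1 - χ(N𝔭) N𝔭^(-s))⁻¹ = L_F(s, χ ∘ N) = LSeries (n ↦ χ n * idealCount F n) s`.

This is `EulerProductStatement` of helper221's CYC skeleton
(`origin/helper221:Fermat/Agent/Lib/Cheb/H221/CycSkel_wip.lean`), handed in unfolded.
-/

set_option autoImplicit false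
set_option linter.unusedSectionVars false
set_option linter.unusedVariables false

namespace Fermat.Agent.Lib.Cheb.H163

open NumberField IsDedekindDomain Ideal

noncomputable section

variable (F : Type) [Field F] [NumberField F] (m : ℕ) [NeZero m] (χ : DirichletCharacter ℂ m)

/-- The twisted term `χ(N I) N(I)^(-s)`. -/
def tw (s : ℝ) (I : Ideal (𝓞 F)) : ℂ :=
  χ (absNorm I : ZMod m) * (((absNorm I : ℝ) ^ (-s) : ℝ) : ℂ)

theorem tw_def (s : ℝ) (I : Ideal (𝓞 F)) :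
    tw F m χ s I = χ (absNorm I : ZMod m) * ((H761.normPow F s I : ℝ) : ℂ) := rfl

theorem tw_mul (s : ℝ) (I J : Ideal (𝓞 F)) :
    tw F m χ s (I * J) = tw F m χ s I * tw F m χ s J := by
  simp only [tw_def, H761.normPow_mul, map_mul, Nat.cast_mul, Complex.ofReal_mul]
  ring

theorem tw_top (s : ℝ) : tw F m χ s ⊤ = 1 := by
  simp [tw_def, H761.normPow_top]

theorem tw_bot {s : ℝ} (hs : s ≠ 0) : tw F m χ s ⊥ = 0 := by
  simp [tw_def, H761.normPow_bot F hs]

theorem norm_tw_le (s : ℝ) (I : Ideal (𝓞 F)) : ‖tw F m χ s I‖ ≤ H761.normPow F s I := by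
  rw [tw_def, norm_mul, Complex.norm_real, Real.norm_of_nonneg (H761.normPow_nonneg F s I)]
  exact mul_le_of_le_one_left (H761.normPow_nonneg F s I) (DirichletCharacter.norm_le_one χ _)

theorem summable_tw {s : ℝ} (hs : 1 < s) : Summable (tw F m χ s) :=
  Summable.of_norm_bounded (H761.summable_normPow F hs) (norm_tw_le F m χ s)

/-- The sum over the nonzero ideals is the sum over all ideals. -/
theorem tsum_sieveSet_empty_tw {s : ℝ} (hs : 1 < s) :
    ∑' I : H761.sieveSet (∅ : Set (HeightOneSpectrum (𝓞 F))), tw F m χ s I =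
      ∑' I : Ideal (𝓞 F), tw F m χ s I := by
  apply tsum_subtype_eq_of_support_subset
  intro I hI
  rw [H761.mem_sieveSet_empty]
  rintro rfl
  exact hI (tw_bot F m χ (by linarith))

/-- Sum over the ideals of norm `n`. -/
theorem tsum_fiber_tw (s : ℝ) (n : ℕ) :
    ∑' I : {I : Ideal (𝓞 F) // absNorm I = n}, tw F m χ s I.1 =
      χ (n : ZMod m) * (Spec.idealCount F n : ℂ) * (((n : ℝ) ^ (-s) : ℝ) : ℂ) := by
  have hfin : Finite {I : Ideal (𝓞 F) // absNorm I = n} :=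
    (Ideal.finite_setOfPred_absNorm_eq n).to_subtype
  have : Fintype {I : Ideal (𝓞 F) // absNorm I = n} := Fintype.ofFinite _
  rw [tsum_fintype]
  have : ∀ I : {I : Ideal (𝓞 F) // absNorm I = n},
      tw F m χ s I.1 = χ (n : ZMod m) * (((n : ℝ) ^ (-s) : ℝ) : ℂ) := by
    intro I
    simp only [tw, I.2]
  simp only [this, Finset.sum_const, Finset.card_univ, nsmul_eq_mul, Spec.idealCount,
    Nat.card_eq_fintype_card]
  ring

theorem lseries_term_eq {s : ℝ} (hs : 1 < s) (n : ℕ) :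
    LSeries.term (fun n => χ (n : ZMod m) * (Spec.idealCount F n : ℂ)) (s : ℂ) n =
      χ (n : ZMod m) * (Spec.idealCount F n : ℂ) * (((n : ℝ) ^ (-s) : ℝ) : ℂ) := by
  rcases eq_or_ne n 0 with rfl | hn
  · have : (0 : ℝ) ^ (-s) = 0 := Real.zero_rpow (by linarith)
    simp [this]
  · rw [LSeries.term_of_ne_zero hn, Complex.ofReal_cpow (Nat.cast_nonneg n), Complex.ofReal_neg,
      Complex.cpow_neg]
    simp [div_eq_mul_inv]

/-- The `L`-series of `χ ∘ N` as a sum over ideals. -/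
theorem tsum_tw_eq_lseries {s : ℝ} (hs : 1 < s) :
    ∑' I : Ideal (𝓞 F), tw F m χ s I =
      LSeries (fun n => χ (n : ZMod m) * (Spec.idealCount F n : ℂ)) (s : ℂ) := by
  have hsum := summable_tw F m χ hs
  have hsum' : Summable (fun x : Σ n : ℕ, {I : Ideal (𝓞 F) // absNorm I = n} =>
      tw F m χ s x.2.1) :=
    ((Equiv.sigmaFiberEquiv (fun I : Ideal (𝓞 F) => absNorm I)).summable_iff
      (f := tw F m χ s)).mpr hsum
  calc ∑' I : Ideal (𝓞 F), tw F m χ s I
      = ∑' x : Σ n : ℕ, {I : Ideal (𝓞 F) // absNorm I = n}, tw F m χ s x.2.1 :=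
        ((Equiv.sigmaFiberEquiv (fun I : Ideal (𝓞 F) => absNorm I)).tsum_eq (tw F m χ s)).symm
    _ = ∑' n : ℕ, ∑' I : {I : Ideal (𝓞 F) // absNorm I = n}, tw F m χ s I.1 :=
        hsum'.tsum_sigma
    _ = ∑' n : ℕ, χ (n : ZMod m) * (Spec.idealCount F n : ℂ) * (((n : ℝ) ^ (-s) : ℝ) : ℂ) :=
        tsum_congr fun n => tsum_fiber_tw F m χ s n
    _ = _ := by
        rw [LSeries]
        exact tsum_congr fun n => (lseries_term_eq F m χ hs n).symm

/-- The value of the `L`-series is nonzero for `s > 1`. -/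
theorem tsum_tw_ne_zero {s : ℝ} (hs : 1 < s) : ∑' I : Ideal (𝓞 F), tw F m χ s I ≠ 0 := by
  rw [← tsum_sieveSet_empty_tw F m χ hs]
  exact H761.tsum_sieve_empty_ne_zero (summable_tw F m χ hs) (tw_mul F m χ s) (tw_top F m χ s)

/-- Euler product, `1 - χ(N𝔭) N𝔭^(-s)` form. -/
theorem hasProd_one_sub_tw {s : ℝ} (hs : 1 < s) :
    HasProd (fun 𝔭 : HeightOneSpectrum (𝓞 F) => 1 - tw F m χ s 𝔭.asIdeal)
      (∑' I : Ideal (𝓞 F), tw F m χ s I)⁻¹ := by
  rw [← tsum_sieveSet_empty_tw F m χ hs]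
  exact H761.hasProd_one_sub (summable_tw F m χ hs) (tw_mul F m χ s) (tw_top F m χ s)

/-- Euler product, `(1 - χ(N𝔭) N𝔭^(-s))⁻¹` form. -/
theorem hasProd_inv_one_sub_tw {s : ℝ} (hs : 1 < s) :
    HasProd (fun 𝔭 : HeightOneSpectrum (𝓞 F) => (1 - tw F m χ s 𝔭.asIdeal)⁻¹)
      (∑' I : Ideal (𝓞 F), tw F m χ s I) := by
  have h := (hasProd_one_sub_tw F m χ hs).inv₀ (inv_ne_zero (tsum_tw_ne_zero F m χ hs))
  simpa using h

end

/-- **(EP)** the twisted Euler product: `EulerProductStatement` of the CYC skeleton. -/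
theorem eulerProduct :
    ∀ (F : Type) [Field F] [NumberField F] (m : ℕ) [NeZero m] (χ : DirichletCharacter ℂ m)
      (s : ℝ), 1 < s →
      HasProd (fun 𝔭 : HeightOneSpectrum (𝓞 F) =>
        (1 - χ (Ideal.absNorm 𝔭.asIdeal : ZMod m) *
          (((Ideal.absNorm 𝔭.asIdeal : ℝ) ^ (-s) : ℝ) : ℂ))⁻¹)
        (LSeries (fun n => χ (n : ZMod m) * (Spec.idealCount F n : ℂ)) (s : ℂ)) := by
  intro F _ _ m _ χ s hs
  rw [← tsum_tw_eq_lseries F m χ hs]
  exact hasProd_inv_one_sub_tw F m χ hs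

end Fermat.Agent.Lib.Cheb.H163
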